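import Fermat.Agent.Transcendence.MahlerMethod
import Mathlib.RingTheory.PowerSeries.Order
import Mathlib.Algebra.MvPolynomial.CommRing

/-!
# The auxiliary polynomial in several functions

For a polynomial `R ≠ 0` over `K` put `F (z, c) = R (f (z) - c)`. Some `∑ P_h (z, c) F ^ h` with
degrees at most `N` vanishes at `z = 0` to an order `M` with `M / N` arbitrary; as `F (0, c) ≠ 0`,
one may take `P₀ ≠ 0`. Where `F` vanishes it is `P₀`, of size `|z| ^ M`.
-/

set_option autoImplicit false
set_option linter.style.haveILetI false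

noncomputable section

namespace FA.MahlerIndependence

open Finset
open FA.Mahler (Rep rep_monomial)

variable {K : Type*} [Field K] {n : ℕ}

/-- The coefficient series of a monomial in the parameters. -/
def coeffSer (κ : Fin n →₀ ℕ) (E : PowerSeries (MvPolynomial (Fin n) K)) : PowerSeries K :=
  PowerSeries.mk fun m => MvPolynomial.coeff κ (PowerSeries.coeff m E)

/-- All coefficient series converge on the unit disc. -/
def Good (ψ : K →+* ℂ) (E : PowerSeries (MvPolynomial (Fin n) K)) : Prop :=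
  ∀ κ, ∃ g, Rep ψ (coeffSer κ E) g

variable {ψ : K →+* ℂ}

theorem rep_zero : Rep ψ (0 : PowerSeries K) fun _ => 0 := fun z _ => by simp

theorem good_zero : Good ψ (0 : PowerSeries (MvPolynomial (Fin n) K)) := fun κ =>
  ⟨fun _ => 0, by
    convert rep_zero (ψ := ψ) (K := K) using 1
    ext m
    simp [coeffSer]⟩

theorem Good.add {E E' : PowerSeries (MvPolynomial (Fin n) K)} (h : Good ψ E) (h' : Good ψ E') :
    Good ψ (E + E') := fun κ => by
  obtain ⟨g, hg⟩ := h κ
  obtain ⟨g', hg'⟩ := h' κ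
  refine ⟨_, (?_ : coeffSer κ E + coeffSer κ E' = coeffSer κ (E + E')) ▸ hg.add hg'⟩
  ext m
  simp [coeffSer]

theorem Good.mul {E E' : PowerSeries (MvPolynomial (Fin n) K)} (h : Good ψ E) (h' : Good ψ E') :
    Good ψ (E * E') := fun κ => by
  classical
  choose g hg using h
  choose g' hg' using h'
  refine ⟨fun z => ∑ ab ∈ Finset.HasAntidiagonal.antidiagonal κ, g ab.1 z * g' ab.2 z, ?_⟩
  rw [show coeffSer κ (E * E') =
      ∑ ab ∈ Finset.HasAntidiagonal.antidiagonal κ, coeffSer ab.1 E * coeffSer ab.2 E' by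
    ext m
    simp only [map_sum, coeffSer, PowerSeries.coeff_mk, PowerSeries.coeff_mul,
      MvPolynomial.coeff_sum, MvPolynomial.coeff_mul]
    exact sum_comm]
  exact Rep.sum (ψ := ψ) _ fun ab _ => (hg ab.1).mul (hg' ab.2)

theorem good_monomial (j : ℕ) (P : MvPolynomial (Fin n) K) :
    Good ψ (PowerSeries.monomial j P) := fun κ =>
  ⟨_, (show PowerSeries.monomial j (MvPolynomial.coeff κ P) =
      coeffSer κ (PowerSeries.monomial j P) by
    ext m
    rw [coeffSer, PowerSeries.coeff_mk, PowerSeries.coeff_monomial, PowerSeries.coeff_monomial]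
    split_ifs <;> simp) ▸ rep_monomial j _⟩

theorem good_C (P : MvPolynomial (Fin n) K) : Good ψ (PowerSeries.C P) := by
  rw [← PowerSeries.monomial_zero_eq_C_apply]
  exact good_monomial 0 P

theorem good_map_C {G : PowerSeries K} {g : ℂ → ℂ} (h : Rep ψ G g) :
    Good ψ (PowerSeries.map (MvPolynomial.C (σ := Fin n)) G) := fun κ => by
  classical
  rcases eq_or_ne κ 0 with rfl | hκ
  · exact ⟨g, by convert h using 1; ext m; simp [coeffSer]⟩
  · exact ⟨fun _ => 0, by
      convert rep_zero (ψ := ψ) (K := K) using 1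
      ext m
      simp [coeffSer, MvPolynomial.coeff_C, Ne.symm hκ]⟩

theorem good_sum {ι : Type*} (s : Finset ι) {E : ι → PowerSeries (MvPolynomial (Fin n) K)}
    (h : ∀ i ∈ s, Good ψ (E i)) : Good ψ (∑ i ∈ s, E i) :=
  Finset.sum_induction E (Good ψ) (fun _ _ => Good.add) good_zero h

theorem Good.pow {E : PowerSeries (MvPolynomial (Fin n) K)} (h : Good ψ E) :
    ∀ i : ℕ, Good ψ (E ^ i)
  | 0 => by rw [pow_zero, ← map_one PowerSeries.C]; exact good_C 1
  | i + 1 => by rw [pow_succ]; exact (h.pow i).mul h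

/-- A series with vanishing low coefficients is small. -/
theorem exists_bound {G : PowerSeries K} {g : ℂ → ℂ} (hG : Rep ψ G g) {M : ℕ}
    (hlow : ∀ m < M, PowerSeries.coeff m G = 0) :
    ∃ B, 0 ≤ B ∧ ∀ z : ℂ, ‖z‖ ≤ 1 / 2 → ‖g z‖ ≤ B * ‖z‖ ^ M := by
  set c : ℕ → ℂ := fun m => ψ (PowerSeries.coeff m G)
  have hh : ‖((1 / 2 : ℝ) : ℂ)‖ < 1 := by simp; norm_num
  have h0 : Summable fun m => ‖c (m + M)‖ * (1 / 2 : ℝ) ^ m := by
    refine (((hG _ hh).1.comp_injective (add_left_injective M)).mul_left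
      ((2 : ℝ) ^ M)).congr fun m => ?_
    simp only [Function.comp, c, norm_mul, norm_pow, Complex.norm_real, Real.norm_eq_abs,
      abs_of_nonneg (by norm_num : (0 : ℝ) ≤ 1 / 2), pow_add]
    rw [show (2 : ℝ) ^ M * (‖ψ (PowerSeries.coeff (m + M) G)‖ * ((1 / 2) ^ m * (1 / 2) ^ M)) =
      ‖ψ (PowerSeries.coeff (m + M) G)‖ * (1 / 2) ^ m * ((2 * (1 / 2)) ^ M) by
        rw [mul_pow]; ring]
    norm_num
  refine ⟨∑' m, ‖c (m + M)‖ * (1 / 2 : ℝ) ^ m, tsum_nonneg fun m => by positivity,
    fun z hz => ?_⟩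
  obtain ⟨g1, g2⟩ := hG z (lt_of_le_of_lt hz (by norm_num))
  have hterm : ∀ m, ‖c (m + M) * z ^ (m + M)‖ ≤ ‖c (m + M)‖ * (1 / 2 : ℝ) ^ m * ‖z‖ ^ M :=
    fun m => by
      rw [norm_mul, norm_pow, pow_add, ← mul_assoc]
      exact mul_le_mul_of_nonneg_right (mul_le_mul_of_nonneg_left
        (pow_le_pow_left₀ (norm_nonneg _) hz m) (norm_nonneg _)) (by positivity)
  rw [← g2, ← g1.of_norm.sum_add_tsum_nat_add M,
    sum_eq_zero fun m hm => by rw [hlow m (mem_range.1 hm), map_zero, zero_mul], zero_add]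
  refine (norm_tsum_le_tsum_norm ((h0.mul_right _).of_nonneg_of_le
    (fun _ => norm_nonneg _) hterm)).trans ?_
  rw [← tsum_mul_right]
  exact ((h0.mul_right _).of_nonneg_of_le (fun _ => norm_nonneg _) hterm).tsum_le_tsum hterm
    (h0.mul_right _)

/-- A polynomial in series. -/
theorem rep_eval₂ {A : Fin n → PowerSeries ℂ} {a : Fin n → ℂ → ℂ}
    (hA : ∀ i, Rep (RingHom.id ℂ) (A i) (a i)) (ψ : K →+* ℂ) (P : MvPolynomial (Fin n) K) :
    Rep (RingHom.id ℂ) (MvPolynomial.eval₂ (PowerSeries.C.comp ψ) A P)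
      fun z => MvPolynomial.eval₂ ψ (fun i => a i z) P := by
  induction P using MvPolynomial.induction_on with
  | C x =>
    simp only [MvPolynomial.eval₂_C, RingHom.comp_apply]
    rw [← PowerSeries.monomial_zero_eq_C_apply]
    simpa using rep_monomial (ψ := RingHom.id ℂ) 0 (ψ x)
  | add p q hp hq =>
    simp only [MvPolynomial.eval₂_add]
    exact hp.add hq
  | mul_X p i hp =>
    simp only [MvPolynomial.eval₂_mul, MvPolynomial.eval₂_X]
    exact hp.mul (hA i)

/-- The expansion in the parameters. -/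
theorem map_eval_eq (γ : Fin n → ℂ) {G : PowerSeries (MvPolynomial (Fin n) K)}
    {s : Finset (Fin n →₀ ℕ)} (hs : ∀ m, (PowerSeries.coeff m G).support ⊆ s) :
    PowerSeries.map (MvPolynomial.eval₂Hom ψ γ) G = ∑ v ∈ s,
      PowerSeries.monomial 0 (∏ i, γ i ^ v i) * PowerSeries.map ψ (coeffSer v G) := by
  ext m
  rw [PowerSeries.coeff_map, MvPolynomial.coe_eval₂Hom, MvPolynomial.eval₂_eq', map_sum]
  rw [sum_subset (hs m) fun v _ hv => by
    rw [MvPolynomial.notMem_support_iff.1 hv, map_zero, zero_mul]]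
  refine sum_congr rfl fun v _ => ?_
  rw [PowerSeries.monomial_zero_eq_C_apply, PowerSeries.coeff_C_mul, PowerSeries.coeff_map,
    coeffSer, PowerSeries.coeff_mk, mul_comm]

variable (c : Fin n → ℕ → K) (R : MvPolynomial (Fin n) K)

/-- `R (f (z) - c)`. -/
def serF : PowerSeries (MvPolynomial (Fin n) K) :=
  MvPolynomial.eval₂ (PowerSeries.C.comp MvPolynomial.C) (fun i =>
    PowerSeries.map MvPolynomial.C (PowerSeries.mk (c i)) - PowerSeries.C (MvPolynomial.X i)) R

/-- `∑ a z ^ j c ^ κ`. -/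
def polyPart (N : ℕ) (a : Fin (N + 1) × (Fin n → Fin (N + 1)) → K) :
    PowerSeries (MvPolynomial (Fin n) K) :=
  ∑ t, PowerSeries.monomial t.1.val
    (MvPolynomial.monomial (Finsupp.equivFunOnFinite.symm fun i => (t.2 i).val) (a t))

/-- The coefficients have degree at most `e`. -/
def DegLe (E : PowerSeries (MvPolynomial (Fin n) K)) (e : ℕ) : Prop :=
  ∀ m, (PowerSeries.coeff m E).totalDegree ≤ e

variable {c} {R}

theorem DegLe.mul {E E' : PowerSeries (MvPolynomial (Fin n) K)} {e e' : ℕ} (h : DegLe E e)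
    (h' : DegLe E' e') : DegLe (E * E') (e + e') := fun m => by
  rw [PowerSeries.coeff_mul]
  exact MvPolynomial.totalDegree_finsetSum_le fun ab _ =>
    (MvPolynomial.totalDegree_mul _ _).trans (add_le_add (h _) (h' _))

theorem degLe_C {P : MvPolynomial (Fin n) K} {e : ℕ} (h : P.totalDegree ≤ e) :
    DegLe (PowerSeries.C P) e := fun m => by
  rw [PowerSeries.coeff_C]
  split_ifs <;> simp [h]

theorem DegLe.pow {E : PowerSeries (MvPolynomial (Fin n) K)} {e : ℕ} (h : DegLe E e) :
    ∀ i : ℕ, DegLe (E ^ i) (i * e)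
  | 0 => by rw [pow_zero, ← map_one PowerSeries.C]; exact degLe_C (by simp)
  | i + 1 => by rw [pow_succ, add_mul, one_mul]; exact (h.pow i).mul h

theorem degLe_sum {ι : Type*} (s : Finset ι) {E : ι → PowerSeries (MvPolynomial (Fin n) K)}
    {e : ℕ} (h : ∀ i ∈ s, DegLe (E i) e) : DegLe (∑ i ∈ s, E i) e := fun m => by
  rw [map_sum]
  exact MvPolynomial.totalDegree_finsetSum_le fun i hi => h i hi m

theorem degLe_prod {ι : Type*} (s : Finset ι) {E : ι → PowerSeries (MvPolynomial (Fin n) K)}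
    {e : ι → ℕ} (h : ∀ i ∈ s, DegLe (E i) (e i)) : DegLe (∏ i ∈ s, E i) (∑ i ∈ s, e i) := by
  classical
  induction s using Finset.induction with
  | empty => rw [prod_empty, sum_empty, ← map_one PowerSeries.C]; exact degLe_C (by simp)
  | insert i s hi ih =>
    rw [prod_insert hi, sum_insert hi]
    exact (h i (mem_insert_self i s)).mul (ih fun j hj => h j (mem_insert_of_mem hj))

theorem degLe_serF : DegLe (serF c R) R.totalDegree := by
  rw [serF, MvPolynomial.eval₂_eq']
  refine degLe_sum _ fun ν hν => ?_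
  have hbase : ∀ i : Fin n, DegLe (PowerSeries.map MvPolynomial.C (PowerSeries.mk (c i)) -
      PowerSeries.C (MvPolynomial.X i) : PowerSeries (MvPolynomial (Fin n) K)) 1 := fun i m => by
    rw [map_sub]
    refine (MvPolynomial.totalDegree_sub _ _).trans (max_le ?_ ?_)
    · simp
    · exact degLe_C (by simp) m
  have h := (degLe_C (e := 0) (P := MvPolynomial.C (MvPolynomial.coeff ν R)) (by simp)).mul
    (degLe_prod univ fun i _ => (hbase i).pow (ν i))
  simp only [zero_add, mul_one, ← Finsupp.degree_eq_sum] at h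
  exact fun m => (h m).trans (MvPolynomial.le_totalDegree hν)

theorem constantCoeff_serF_ne_zero (hR : R ≠ 0) : PowerSeries.constantCoeff (serF c R) ≠ 0 := by
  intro h
  rw [serF, ← MvPolynomial.coe_eval₂Hom, ← RingHom.comp_apply,
    MvPolynomial.comp_eval₂Hom, ← RingHom.comp_assoc] at h
  set φ : MvPolynomial (Fin n) K →+* MvPolynomial (Fin n) K :=
    MvPolynomial.eval₂Hom MvPolynomial.C fun i => MvPolynomial.C (c i 0) - MvPolynomial.X i
  have h1 : φ R = 0 := by
    rw [← h]
    refine congrArg (fun F : MvPolynomial (Fin n) K →+* MvPolynomial (Fin n) K => F R) ?_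
    refine MvPolynomial.ringHom_ext (fun a => by simp [φ]) fun i => ?_
    simp [φ]
    rw [← PowerSeries.coeff_zero_eq_constantCoeff_apply, PowerSeries.coeff_map,
      PowerSeries.coeff_mk]
  have h2 : φ.comp φ = RingHom.id _ :=
    MvPolynomial.ringHom_ext (fun a => by simp [φ]) fun i => by simp [φ]
  exact hR (by rw [← RingHom.id_apply R, ← h2, RingHom.comp_apply, h1, map_zero])

theorem good_serF {f : Fin n → ℂ → ℂ} (hf : ∀ i, Rep ψ (PowerSeries.mk (c i)) (f i)) :
    Good ψ (serF c R) := by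
  rw [serF, MvPolynomial.eval₂_eq']
  refine good_sum _ fun ν _ => (good_C _).mul ?_
  refine Finset.prod_induction _ (Good ψ) (fun _ _ => Good.mul) ?_ fun i _ => ?_
  · rw [← map_one PowerSeries.C]; exact good_C 1
  · refine Good.pow ?_ _
    rw [sub_eq_add_neg, ← map_neg]
    exact (good_map_C (hf i)).add (good_C _)

variable [NumberField K]

/-- **The auxiliary polynomial.** -/
theorem exists_auxiliary {f : Fin n → ℂ → ℂ} (hf : ∀ i, Rep ψ (PowerSeries.mk (c i)) (f i))
    (hR : R ≠ 0) {Γ : ℝ} (hΓ : 1 ≤ Γ) {s : ℕ} (hs : 2 ≤ s) :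
    ∃ (N M : ℕ) (η : Fin (N + 1) × (Fin n → Fin (N + 1)) → K) (B : ℝ),
      1 ≤ N ∧ s * N ≤ M ∧ η ≠ 0 ∧ (∀ t, IsIntegral ℤ (η t)) ∧
      ∀ (z : ℂ) (γ : Fin n → ℂ), ‖z‖ ≤ 1 / 2 → (∀ i, ‖γ i‖ ≤ Γ) →
        MvPolynomial.eval₂ ψ (fun i => f i z - γ i) R = 0 →
        ‖∑ t, ψ (η t) * (z ^ t.1.val * ∏ i, γ i ^ (t.2 i).val)‖ ≤ B * ‖z‖ ^ M := by
  classical
  set D := R.totalDegree
  set L := n + D + 1
  obtain ⟨N, hN⟩ : ∃ N, N + 1 = L ^ n * s := by
    have : 0 < L ^ n * s := by positivity
    exact ⟨L ^ n * s - 1, by omega⟩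
  set M := L ^ n * s * s - 1 with hM
  have hLn : 1 ≤ L ^ n := Nat.one_le_pow _ _ (by omega)
  have hN1 : 1 ≤ N := by nlinarith
  have hMN : s * N ≤ M := by
    have h1 : s * (N + 1) = L ^ n * s * s := by rw [hN]; ring
    rw [hM]
    have : s * (N + 1) = s * N + s := by ring
    omega
  set T := (n + D) * N
  let box := Fin (N + 1) × (Fin n → Fin (N + 1))
  let F := serF c R
  let Φ : (Fin (N + 1) × box → K) →ₗ[K] (Fin M × (Fin n → Fin (T + 1)) → K) :=
    LinearMap.pi fun m => ∑ t : Fin (N + 1) × box, MvPolynomial.coeff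
      (Finsupp.equivFunOnFinite.symm fun i => (m.2 i).val)
      (PowerSeries.coeff m.1.val (PowerSeries.monomial t.2.1.val (MvPolynomial.monomial
        (Finsupp.equivFunOnFinite.symm fun i => (t.2.2 i).val) (1 : K)) * F ^ t.1.val)) •
        LinearMap.proj t
  obtain ⟨e, he, he0⟩ : ∃ e : Fin (N + 1) × box → K, Φ e = 0 ∧ e ≠ 0 := by
    by_contra hc'
    push Not at hc'
    have hinj : Function.Injective Φ := LinearMap.ker_eq_bot.mp
      ((Submodule.eq_bot_iff _).mpr fun e he => hc' e he)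
    have hle := LinearMap.finrank_le_finrank_of_injective hinj
    simp only [box, Module.finrank_pi, Fintype.card_prod, Fintype.card_fun,
      Fintype.card_fin] at hle
    have hT : (T + 1) ^ n ≤ L ^ n * (N + 1) ^ n := by
      rw [← mul_pow]
      exact Nat.pow_le_pow_left (by simp only [T, L]; nlinarith) n
    have hM' : M * L ^ n < (N + 1) * (N + 1) := by
      have h1 : M + 1 = L ^ n * s * s := by
        have : 0 < L ^ n * s * s := by positivity
        omega
      rw [hN]
      nlinarith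
    have h2 : M * (T + 1) ^ n < (N + 1) * ((N + 1) * (N + 1) ^ n) := by
      calc M * (T + 1) ^ n ≤ M * (L ^ n * (N + 1) ^ n) := Nat.mul_le_mul_left _ hT
        _ = M * L ^ n * (N + 1) ^ n := by ring
        _ < (N + 1) * (N + 1) * (N + 1) ^ n := Nat.mul_lt_mul_of_pos_right hM' (by positivity)
        _ = _ := by ring
    omega
  let a : ℕ → box → K := fun h t => if hh : h < N + 1 then e (⟨h, hh⟩, t) else 0
  have ha : ∀ t : Fin (N + 1) × box, a t.1.val t.2 = e t := fun t => dif_pos t.1.isLt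
  set E := ∑ h ∈ range (N + 1), polyPart N (a h) * F ^ h with hE
  have hlow : ∀ m < M, PowerSeries.coeff m E = 0 := fun m hm => by
    refine MvPolynomial.ext _ _ fun κ => ?_
    rw [MvPolynomial.coeff_zero]
    by_cases hbox : ∀ i, κ i < T + 1
    · have h1 := congrFun he (⟨m, hm⟩, fun i => ⟨κ i, hbox i⟩)
      simp only [Φ, LinearMap.pi_apply, LinearMap.sum_apply, LinearMap.smul_apply,
        LinearMap.proj_apply, smul_eq_mul, Pi.zero_apply] at h1
      rw [show Finsupp.equivFunOnFinite.symm (fun i => κ i) = κ from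
        Finsupp.ext fun i => rfl] at h1
      rw [← h1, hE, ← Fin.sum_univ_eq_sum_range (fun h => polyPart N (a h) * F ^ h),
        Fintype.sum_prod_type]
      simp only [map_sum, MvPolynomial.coeff_sum]
      refine sum_congr rfl fun h _ => ?_
      simp only [polyPart, sum_mul, map_sum, MvPolynomial.coeff_sum]
      refine sum_congr rfl fun t _ => ?_
      rw [← ha (h, t), mul_comm _ (a h.val t), ← MvPolynomial.coeff_C_mul,
        ← PowerSeries.coeff_C_mul, ← mul_assoc]
      congr 3
      ext u v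
      rw [PowerSeries.coeff_C_mul, PowerSeries.coeff_monomial, PowerSeries.coeff_monomial]
      split_ifs <;> simp [MvPolynomial.C_mul_monomial]
    · push Not at hbox
      obtain ⟨i, hi⟩ := hbox
      refine MvPolynomial.coeff_eq_zero_of_totalDegree_lt ?_
      have hd : DegLe E T := degLe_sum _ fun h hh => by
        have hh' : h ≤ N := Nat.lt_succ_iff.1 (mem_range.1 hh)
        have h1 : DegLe (polyPart N (a h)) (n * N) := degLe_sum _ fun t _ m => by
          rw [PowerSeries.coeff_monomial]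
          split_ifs
          · refine (MvPolynomial.totalDegree_monomial_le _ _).trans ?_
            rw [Finsupp.sum_fintype _ _ fun _ => rfl]
            calc ∑ i, (Finsupp.equivFunOnFinite.symm fun i => (t.2 i).val) i ≤ ∑ _i : Fin n, N :=
                  sum_le_sum fun i _ => Nat.lt_succ_iff.1 (t.2 i).isLt
              _ = n * N := by simp
          · simp
        exact fun m => ((h1.mul (degLe_serF.pow h)) m).trans
          (by simp only [T, D]; nlinarith [Nat.mul_le_mul_right R.totalDegree hh'])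
      refine lt_of_le_of_lt (hd m) (lt_of_lt_of_le (show T < κ i by omega) ?_)
      exact (Finsupp.le_degree i κ).trans_eq rfl
  obtain ⟨h₁, hh₁⟩ : ∃ h, a h ≠ 0 := by
    obtain ⟨t, ht⟩ := Function.ne_iff.1 he0
    exact ⟨t.1.val, fun h0 => ht (by rw [← ha t, h0]; rfl)⟩
  set hex : ∃ h, a h ≠ 0 := ⟨h₁, hh₁⟩
  set h₀ := Nat.find hex
  have hh₀ : h₀ < N + 1 := by
    by_contra hc
    refine Nat.find_spec hex (funext fun t => ?_)
    simp only [a]
    rw [dif_neg hc]
    rfl
  set E' := ∑ k ∈ range (N + 1 - h₀), polyPart N (a (h₀ + k)) * F ^ k with hE'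
  have hEE : E = F ^ h₀ * E' := by
    rw [hE, show N + 1 = h₀ + (N + 1 - h₀) by omega, sum_range_add, sum_eq_zero fun h hh => by
      rw [not_not.1 (Nat.find_min hex (mem_range.1 hh))]
      simp [polyPart]]
    rw [zero_add, hE', mul_sum]
    refine sum_congr rfl fun k _ => ?_
    rw [pow_add]
    ring
  have hlow' : ∀ m < M, PowerSeries.coeff m E' = 0 := fun m hm => by
    have hF : F.order = 0 := by
      refine le_antisymm ?_ bot_le
      exact_mod_cast PowerSeries.order_le 0 (by
        simpa using constantCoeff_serF_ne_zero (c := c) hR)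
    have hord : (M : ℕ∞) ≤ E.order :=
      PowerSeries.nat_le_order _ _ fun i hi => hlow i hi
    rw [hEE, PowerSeries.order_mul, PowerSeries.order_pow, hF, smul_zero, zero_add] at hord
    exact PowerSeries.coeff_of_lt_order m (lt_of_lt_of_le (by exact_mod_cast hm) hord)
  have hgood : Good ψ E' := good_sum _ fun k _ =>
    (good_sum _ fun t _ => good_monomial _ _).mul ((good_serF hf).pow k)
  have hpp : ∀ (b : box → K), DegLe (polyPart N b) (n * N) := fun b => degLe_sum _ fun t _ m => by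
    rw [PowerSeries.coeff_monomial]
    split_ifs
    · refine (MvPolynomial.totalDegree_monomial_le _ _).trans ?_
      rw [Finsupp.sum_fintype _ _ fun _ => rfl]
      calc ∑ i, (Finsupp.equivFunOnFinite.symm fun i => (t.2 i).val) i ≤ ∑ _i : Fin n, N :=
            sum_le_sum fun i _ => Nat.lt_succ_iff.1 (t.2 i).isLt
        _ = n * N := by simp
    · simp
  have hdeg' : DegLe E' T := degLe_sum _ fun k hk m => by
    have hk' : k ≤ N := by have := mem_range.1 hk; omega
    exact ((hpp _).mul (degLe_serF.pow k) m).trans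
      (by simp only [T, D]; nlinarith [Nat.mul_le_mul_right R.totalDegree hk'])
  choose g hg using hgood
  let box' : Finset (Fin n →₀ ℕ) := (Fintype.piFinset fun _ : Fin n => range (T + 1)).image
    fun v => Finsupp.equivFunOnFinite.symm v
  have hsupp : ∀ m, (PowerSeries.coeff m E').support ⊆ box' := fun m v hv => by
    refine mem_image.2 ⟨fun i => v i, Fintype.mem_piFinset.2 fun i => mem_range.2 ?_,
      Finsupp.ext fun i => rfl⟩
    exact Nat.lt_succ_of_le ((Finsupp.le_degree i v).trans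
      ((MvPolynomial.le_totalDegree hv).trans (hdeg' m)))
  choose B hB0 hB using fun v => exists_bound (hg v) (M := M) fun m hm => by
    rw [coeffSer, PowerSeries.coeff_mk, hlow' m hm, MvPolynomial.coeff_zero]
  haveI : Algebra.IsAlgebraic ℤ K :=
    (IsFractionRing.comap_isAlgebraic_iff (A := ℤ) (K := ℚ) (C := K)).2 inferInstance
  obtain ⟨Dn, hDn, hDint⟩ := Algebra.IsAlgebraic.exists_integral_multiples ℤ
    ((Finset.univ : Finset box).image (a h₀))
  refine ⟨N, M, fun t => (Dn : K) * a h₀ t,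
    |(Dn : ℝ)| * (Γ ^ (n * T) * ∑ v ∈ box', B v), hN1, hMN, fun h => Nat.find_spec hex ?_,
    fun t => ?_, fun z γ hz hγ hRz => ?_⟩
  · refine funext fun t => ?_
    simpa [hDn] using congrFun h t
  · simpa [mem_integralClosure_iff, zsmul_eq_mul] using hDint (a h₀ t) (by simp)
  set ev : MvPolynomial (Fin n) K →+* ℂ := MvPolynomial.eval₂Hom ψ γ
  have hz1 : ‖z‖ < 1 := lt_of_le_of_lt hz (by norm_num)
  have hF : Rep (RingHom.id ℂ) (PowerSeries.map ev F)
      fun w => MvPolynomial.eval₂ ψ (fun i => f i w - γ i) R := by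
    have hA : ∀ i, Rep (RingHom.id ℂ) (PowerSeries.map ψ (PowerSeries.mk (c i)) -
        PowerSeries.C (γ i)) fun w => f i w - γ i := fun i => by
      have h1 : Rep (RingHom.id ℂ) (PowerSeries.map ψ (PowerSeries.mk (c i))) (f i) :=
        fun w hw => by simpa using hf i w hw
      have h2 := rep_monomial (ψ := RingHom.id ℂ) 0 (-γ i)
      rw [PowerSeries.monomial_zero_eq_C_apply, map_neg] at h2
      simpa [sub_eq_add_neg] using h1.add h2
    convert rep_eval₂ hA ψ R using 1
    rw [show F = serF c R from rfl, serF, ← MvPolynomial.coe_eval₂Hom, ← RingHom.comp_apply,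
      ← MvPolynomial.coe_eval₂Hom]
    refine congrArg (fun G : MvPolynomial (Fin n) K →+* PowerSeries ℂ => G R) ?_
    refine MvPolynomial.ringHom_ext (fun x => ?_) fun i => ?_
    · simp [ev]
    · ext m
      simp [ev, PowerSeries.coeff_C]
  have hP : ∀ b : box → K, Rep (RingHom.id ℂ) (PowerSeries.map ev (polyPart N b))
      fun w => ∑ t, ψ (b t) * (w ^ t.1.val * ∏ i, γ i ^ (t.2 i).val) := fun b => by
    rw [polyPart, map_sum]
    refine Rep.sum _ fun t _ => ?_
    rw [show PowerSeries.map ev (PowerSeries.monomial t.1.val (MvPolynomial.monomial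
        (Finsupp.equivFunOnFinite.symm fun i => (t.2 i).val) (b t))) =
        PowerSeries.monomial t.1.val (ψ (b t) * ∏ i, γ i ^ (t.2 i).val) by
      ext m
      rw [PowerSeries.coeff_map, PowerSeries.coeff_monomial, PowerSeries.coeff_monomial]
      split_ifs <;> simp [ev, Finsupp.prod_fintype]]
    intro w hw
    obtain ⟨r1, r2⟩ := rep_monomial (ψ := RingHom.id ℂ) t.1.val
      (ψ (b t) * ∏ i, γ i ^ (t.2 i).val) w hw
    refine ⟨r1, r2.trans ?_⟩
    simp only [RingHom.id_apply]
    ring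
  have hE1 : Rep (RingHom.id ℂ) (PowerSeries.map ev E') fun w => ∑ k ∈ range (N + 1 - h₀),
      (∑ t, ψ (a (h₀ + k) t) * (w ^ t.1.val * ∏ i, γ i ^ (t.2 i).val)) *
        MvPolynomial.eval₂ ψ (fun i => f i w - γ i) R ^ k := by
    rw [hE', map_sum]
    refine Rep.sum _ fun k _ => ?_
    rw [map_mul, map_pow]
    exact (hP _).mul (hF.pow k)
  have hE2 : Rep (RingHom.id ℂ) (PowerSeries.map ev E') fun w =>
      ∑ v ∈ box', (∏ i, γ i ^ v i) * g v w := by
    rw [map_eval_eq (ψ := ψ) γ hsupp]
    refine Rep.sum _ fun v _ => ?_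
    have h1 : Rep (RingHom.id ℂ) (PowerSeries.map ψ (coeffSer v E')) (g v) :=
      fun w hw => by simpa using hg v w hw
    simpa using (rep_monomial (ψ := RingHom.id ℂ) 0 (∏ i, γ i ^ v i)).mul h1
  have hval := (hE1 z hz1).2.symm.trans (hE2 z hz1).2
  beta_reduce at hval
  rw [sum_eq_single 0 (fun k _ hk => by rw [hRz, zero_pow hk, mul_zero])
    (fun h => absurd (mem_range.2 (by omega)) h)] at hval
  simp only [add_zero, pow_zero, mul_one] at hval
  simp only [map_mul, map_intCast, mul_assoc, ← mul_sum]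
  rw [hval, norm_mul, Complex.norm_intCast, sum_mul, mul_sum]
  refine mul_le_mul_of_nonneg_left ((norm_sum_le _ _).trans (sum_le_sum fun v hv => ?_))
    (abs_nonneg _)
  rw [norm_mul]
  refine mul_le_mul ?_ (hB v z hz) (norm_nonneg _) (by positivity)
  rw [norm_prod]
  calc ∏ i, ‖γ i ^ v i‖ ≤ ∏ _i : Fin n, Γ ^ T := prod_le_prod (fun i _ => norm_nonneg _)
        fun i _ => by
          rw [norm_pow]
          refine (pow_le_pow_left₀ (norm_nonneg _) (hγ i) _).trans (pow_le_pow_right₀ hΓ ?_)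
          obtain ⟨u, hu, rfl⟩ := mem_image.1 hv
          exact Nat.lt_succ_iff.1 (mem_range.1 (Fintype.mem_piFinset.1 hu i))
    _ = Γ ^ (n * T) := by rw [prod_const, card_univ, Fintype.card_fin, ← pow_mul, mul_comm]

end FA.MahlerIndependence

end
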