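import Mathlib.Algebra.Polynomial.Expand
import Mathlib.Algebra.MvPolynomial.CommRing
import Mathlib.Analysis.Complex.Basic
import Mathlib.FieldTheory.Separable

/-!
# Algebraic relations between solutions of `f (z ^ d) = f (z) + b (z)`

A relation of least leading part is invariant under `z ↦ z ^ d`, `y ↦ y + b`, so gives constants
`γ ≠ 0` and a polynomial `q` with `q (z ^ d) - q (z) = ∑ γ b` (Kubota, Loxton–van der Poorten).
-/

set_option autoImplicit false

noncomputable section

namespace FA.MahlerIndependence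

open Finset
open Polynomial (expand)

variable {F : Type*} [Field F] {d : ℕ}

theorem eq_const_of_expand_dvd (hd : 2 ≤ d) {p : Polynomial F} (hp : p ≠ 0)
    (h : expand F d p ∣ p) : p.natDegree = 0 := by
  have h1 := Polynomial.natDegree_le_of_dvd h hp
  rw [Polynomial.natDegree_expand] at h1
  by_contra h0
  nlinarith [Nat.pos_of_ne_zero h0]

/-- **Quotients with a polynomial difference are polynomials.** -/
theorem exists_eq_mul (hd : 2 ≤ d) {p s Γ : Polynomial F} (hp : p ≠ 0)
    (h : p * expand F d s - expand F d p * s = -(p * expand F d p * Γ)) :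
    ∃ q, s = p * q ∧ expand F d q - q = -Γ := by
  classical
  have hd0 : 0 < d := by omega
  obtain ⟨p', s', g, hu', hp', hs'⟩ :=
    UniqueFactorizationMonoid.exists_reduced_factors p hp s
  have hu : IsCoprime p' s' := hu'.isCoprime
  subst hp' hs'
  have hp0 : p' ≠ 0 := right_ne_zero_of_mul hp
  have hg : g ≠ 0 := left_ne_zero_of_mul hp
  have hep : expand F d p' ≠ 0 := fun e =>
    hp0 (Polynomial.expand_injective hd0 (by rw [e, map_zero]))
  have heg : expand F d g ≠ 0 := fun e =>
    hg (Polynomial.expand_injective hd0 (by rw [e, map_zero]))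
  have h' : p' * expand F d s' - expand F d p' * s' = -(p' * expand F d p' * Γ) := by
    refine mul_left_cancel₀ (mul_ne_zero hg heg) ?_
    rw [map_mul, map_mul] at h
    linear_combination h
  have hdvd : expand F d p' ∣ p' * expand F d s' :=
    ⟨s' - p' * Γ, by linear_combination h'⟩
  have hcop : IsCoprime (expand F d p') (expand F d s') := hu.map (expand F d).toRingHom
  obtain ⟨c, hc⟩ := Polynomial.natDegree_eq_zero.1
    (eq_const_of_expand_dvd hd hp0 (hcop.dvd_of_dvd_mul_right hdvd))
  have hc0 : c ≠ 0 := fun e => hp0 (by rw [← hc, e, map_zero])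
  have hC : Polynomial.C c * Polynomial.C c⁻¹ = 1 := by
    rw [← map_mul, mul_inv_cancel₀ hc0, map_one]
  refine ⟨Polynomial.C c⁻¹ * s', ?_, ?_⟩
  · rw [← hc]
    linear_combination (-(s' * g)) * hC
  · refine mul_left_cancel₀ (mul_ne_zero hp0 hep) ?_
    rw [← hc, Polynomial.expand_C] at h' ⊢
    rw [map_mul, Polynomial.expand_C]
    linear_combination h' + (Polynomial.C c * (expand F d s' - s')) * hC

/-- Solutions without right side are constant multiples. -/
theorem exists_eq_const_mul (hd : 2 ≤ d) {p s : Polynomial F} (hp : p ≠ 0)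
    (h : p * expand F d s = expand F d p * s) : ∃ c, s = p * Polynomial.C c := by
  obtain ⟨q, hq, hqe⟩ := exists_eq_mul (Γ := 0) hd hp (by rw [h]; ring)
  rw [neg_zero, sub_eq_zero] at hqe
  obtain ⟨c, hc⟩ : ∃ c, Polynomial.C c = q := by
    rcases eq_or_ne q 0 with rfl | h0
    · exact ⟨0, map_zero _⟩
    · exact Polynomial.natDegree_eq_zero.1 (eq_const_of_expand_dvd hd h0 (by rw [hqe]))
  exact ⟨c, by rw [hc]; exact hq⟩

variable {n : ℕ}

/-- The coefficients of a product of translated powers. -/
theorem coeff_prod_translate {R : Type*} [CommRing R] (b : Fin n → R) (ν ρ : Fin n →₀ ℕ) :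
    MvPolynomial.coeff ρ (∏ i, (MvPolynomial.X i + MvPolynomial.C (b i)) ^ ν i) =
      ∏ i, ((ν i).choose (ρ i) : R) * b i ^ (ν i - ρ i) := by
  classical
  have e : ∀ i, (MvPolynomial.X i + MvPolynomial.C (b i) : MvPolynomial (Fin n) R) ^ ν i =
      ∑ k ∈ range (ν i + 1), MvPolynomial.monomial (Finsupp.single i k)
        (((ν i).choose k : R) * b i ^ (ν i - k)) := fun i => by
    rw [add_pow]
    refine sum_congr rfl fun k _ => ?_
    rw [MvPolynomial.X_pow_eq_monomial, ← map_pow, ← map_natCast (MvPolynomial.C (σ := Fin n)),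
      mul_assoc, ← map_mul, mul_comm, MvPolynomial.C_mul_monomial, mul_one, mul_comm]
  simp only [e, prod_univ_sum, MvPolynomial.coeff_sum]
  simp only [← MvPolynomial.monomial_sum_prod, MvPolynomial.coeff_monomial]
  by_cases hle : ∀ i, ρ i ≤ ν i
  · rw [sum_eq_single (fun i => ρ i)]
    · rw [if_pos (Finsupp.univ_sum_single ρ)]
    · intro κ _ hκ
      rw [if_neg]
      intro hκρ
      refine hκ (funext fun i => ?_)
      have := congrArg (fun v : Fin n →₀ ℕ => v i) hκρ
      simpa [Finsupp.finsetSum_apply, Finsupp.single_apply] using this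
    · intro hκ
      refine absurd ?_ hκ
      simp only [Fintype.mem_piFinset, mem_range]
      exact fun i => Nat.lt_succ_of_le (hle i)
  · push Not at hle
    obtain ⟨i, hi⟩ := hle
    rw [prod_eq_zero (mem_univ i) (by rw [Nat.choose_eq_zero_of_lt hi, Nat.cast_zero, zero_mul])]
    refine sum_eq_zero fun κ hκ => if_neg fun hκρ => ?_
    have h1 := congrArg (fun v : Fin n →₀ ℕ => v i) hκρ
    simp only [Finsupp.finsetSum_apply, Finsupp.single_apply, sum_ite_eq', mem_univ,
      if_true] at h1
    have h2 := mem_range.1 (Fintype.mem_piFinset.1 hκ i)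
    omega

theorem degree_le_of_le {ν ρ : Fin n →₀ ℕ} (h : ∀ i, ρ i ≤ ν i) (hdeg : ν.degree ≤ ρ.degree) :
    ν = ρ := by
  classical
  rw [Finsupp.degree_eq_sum, Finsupp.degree_eq_sum] at hdeg
  ext i
  exact ((sum_eq_sum_iff_of_le fun j _ => h j).1 (le_antisymm (sum_le_sum fun j _ => h j) hdeg)
    i (mem_univ i)).symm

/-- `P (z ^ d, y + b)`. -/
def twist (d : ℕ) (b : Fin n → Polynomial F) :
    MvPolynomial (Fin n) (Polynomial F) →+* MvPolynomial (Fin n) (Polynomial F) :=
  MvPolynomial.eval₂Hom (MvPolynomial.C.comp (expand F d).toRingHom)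
    fun i => MvPolynomial.X i + MvPolynomial.C (b i)

theorem coeff_twist (b : Fin n → Polynomial F) (P : MvPolynomial (Fin n) (Polynomial F))
    (ρ : Fin n →₀ ℕ) : MvPolynomial.coeff ρ (twist d b P) = ∑ ν ∈ P.support,
      expand F d (MvPolynomial.coeff ν P) *
        ∏ i, ((ν i).choose (ρ i) : Polynomial F) * b i ^ (ν i - ρ i) := by
  rw [twist, MvPolynomial.coe_eval₂Hom, MvPolynomial.eval₂_eq', MvPolynomial.coeff_sum]
  refine sum_congr rfl fun ν _ => ?_
  rw [RingHom.comp_apply, MvPolynomial.coeff_C_mul, coeff_prod_translate]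
  rfl

theorem exists_lt_of_degree {ν ρ : Fin n →₀ ℕ} (hdeg : ν.degree ≤ ρ.degree) (hne : ν ≠ ρ) :
    ∃ i, ν i < ρ i := by
  by_contra hc
  push Not at hc
  exact hne (degree_le_of_le hc hdeg)

/-- The top coefficients. -/
theorem coeff_twist_top (b : Fin n → Polynomial F) {P : MvPolynomial (Fin n) (Polynomial F)}
    {ρ : Fin n →₀ ℕ} (hρ : P.totalDegree ≤ ρ.degree) :
    MvPolynomial.coeff ρ (twist d b P) = expand F d (MvPolynomial.coeff ρ P) := by
  rw [coeff_twist, sum_eq_single ρ]
  · simp
  · intro ν hν hne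
    obtain ⟨i, hi⟩ := exists_lt_of_degree
      ((MvPolynomial.le_totalDegree hν).trans hρ) hne
    rw [prod_eq_zero (mem_univ i) (by rw [Nat.choose_eq_zero_of_lt hi]; simp), mul_zero]
  · intro h
    rw [MvPolynomial.notMem_support_iff.1 h, map_zero, zero_mul]

/-- The coefficients one degree below. -/
theorem coeff_twist_sub_top (b : Fin n → Polynomial F) {P : MvPolynomial (Fin n) (Polynomial F)}
    {ρ : Fin n →₀ ℕ} (hρ : P.totalDegree ≤ ρ.degree + 1) :
    MvPolynomial.coeff ρ (twist d b P) = expand F d (MvPolynomial.coeff ρ P) +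
      ∑ l, expand F d (MvPolynomial.coeff (ρ + Finsupp.single l 1) P) *
        ((ρ l + 1 : ℕ) : Polynomial F) * b l := by
  classical
  set T : (Fin n →₀ ℕ) → Polynomial F := fun ν => expand F d (MvPolynomial.coeff ν P) *
    ∏ i, ((ν i).choose (ρ i) : Polynomial F) * b i ^ (ν i - ρ i)
  have hnot : ρ ∉ univ.image fun l => ρ + Finsupp.single l 1 := fun h => by
    obtain ⟨l, -, hl⟩ := mem_image.1 h
    have := congrArg (fun v : Fin n →₀ ℕ => v l) hl
    simp at this
  have hzero : ∀ ν ∈ P.support, ν ∉ insert ρ (univ.image fun l => ρ + Finsupp.single l 1) →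
      T ν = 0 := fun ν hν hν' => by
    by_cases hle : ∀ i, ρ i ≤ ν i
    · exfalso
      simp only [mem_insert, mem_image, mem_univ, true_and, not_or, not_exists] at hν'
      obtain ⟨l, hl⟩ : ∃ l, ρ l < ν l := by
        by_contra hc
        push Not at hc
        exact hν'.1 (Finsupp.ext fun i => le_antisymm (hc i) (hle i))
      refine hν'.2 l (degree_le_of_le (fun i => ?_) ?_).symm
      · rcases eq_or_ne l i with rfl | hli
        · simp
          omega
        · simp [Finsupp.single_eq_of_ne' hli, hle i]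
      · rw [map_add, Finsupp.degree_single]
        exact (MvPolynomial.le_totalDegree hν).trans hρ
    · push Not at hle
      obtain ⟨i, hi⟩ := hle
      simp only [T]
      rw [prod_eq_zero (mem_univ i) (by rw [Nat.choose_eq_zero_of_lt hi]; simp), mul_zero]
  have hsum : ∑ ν ∈ P.support, T ν =
      ∑ ν ∈ insert ρ (univ.image fun l => ρ + Finsupp.single l 1), T ν := by
    rw [sum_subset (subset_union_left (s₁ := P.support)
      (s₂ := insert ρ (univ.image fun l => ρ + Finsupp.single l 1))) fun ν _ h => by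
        simp [T, MvPolynomial.notMem_support_iff.1 h]]
    symm
    refine sum_subset subset_union_right fun ν hν h => hzero ν ?_ h
    exact (mem_union.1 hν).resolve_right h
  rw [coeff_twist, hsum, sum_insert hnot, sum_image fun l _ m _ h => by
    by_contra hne
    have := congrArg (fun v : Fin n →₀ ℕ => v l) h
    simp [Finsupp.single_eq_of_ne' (Ne.symm hne)] at this]
  refine congrArg₂ _ (by simp [T]) (sum_congr rfl fun l _ => ?_)
  simp only [T]
  rw [mul_assoc, Fintype.prod_eq_single l fun i hi => by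
    simp [Finsupp.single_eq_of_ne' (Ne.symm hi)]]
  simp

theorem totalDegree_twist_le (b : Fin n → Polynomial F)
    (P : MvPolynomial (Fin n) (Polynomial F)) :
    (twist d b P).totalDegree ≤ P.totalDegree := by
  classical
  refine Finset.sup_le fun ρ hρ => ?_
  by_contra hc
  push Not at hc
  have h := coeff_twist_top (d := d) b (P := P) (ρ := ρ) hc.le
  rw [MvPolynomial.coeff_eq_zero_of_totalDegree_lt (f := P) (d := ρ) hc, map_zero] at h
  exact MvPolynomial.mem_support_iff.1 hρ h

/-- The monomials of the top degree. -/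
def topSupport (P : MvPolynomial (Fin n) (Polynomial F)) (D : ℕ) : Finset (Fin n →₀ ℕ) :=
  {ν ∈ P.support | ν.degree = D}

/-- **No relation.** -/
theorem no_relation (hd : 2 ≤ d) {f : Fin n → ℂ → ℂ} {b : Fin n → Polynomial ℂ}
    (heq : ∀ i, ∀ z : ℂ, ‖z‖ < 1 → f i (z ^ d) = f i z + (b i).eval z)
    (hb : ∀ (g : Fin n → ℂ) (q : Polynomial ℂ),
      expand ℂ d q - q = ∑ i, Polynomial.C (g i) * b i → g = 0)
    {P : MvPolynomial (Fin n) (Polynomial ℂ)}
    (hP : ∀ z : ℂ, ‖z‖ < 1 →
      MvPolynomial.eval₂ (Polynomial.evalRingHom z) (fun i => f i z) P = 0) : P = 0 := by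
  classical
  suffices h : ∀ D k : ℕ, ∀ P : MvPolynomial (Fin n) (Polynomial ℂ), P.totalDegree ≤ D →
      (topSupport P D).card ≤ k → (∀ z : ℂ, ‖z‖ < 1 →
        MvPolynomial.eval₂ (Polynomial.evalRingHom z) (fun i => f i z) P = 0) → P = 0 from
    h _ _ P le_rfl le_rfl hP
  clear hP P
  intro D
  induction D using Nat.strong_induction_on with
  | _ D ihD =>
  intro k
  induction k using Nat.strong_induction_on with
  | _ k ihk =>
  intro P hdeg hcard hP
  rcases (topSupport P D).eq_empty_or_nonempty with hempty | ⟨μ, hμ⟩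
  · rcases Nat.eq_zero_or_pos D with rfl | hD
    · refine MvPolynomial.support_eq_empty.1 (eq_empty_of_forall_notMem fun ν hν => ?_)
      have : ν ∈ topSupport P 0 := mem_filter.2
        ⟨hν, Nat.le_zero.1 ((MvPolynomial.le_totalDegree hν).trans hdeg)⟩
      simp [hempty] at this
    · refine ihD (D - 1) (by omega) _ P ?_ le_rfl hP
      refine Finset.sup_le fun ν hν => ?_
      have h1 : ν.degree ≤ D := (MvPolynomial.le_totalDegree hν).trans hdeg
      rcases h1.eq_or_lt with h2 | h2
      · have : ν ∈ topSupport P D := mem_filter.2 ⟨hν, h2⟩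
        simp [hempty] at this
      · exact Nat.le_sub_one_of_lt h2
  obtain ⟨hμs, hμd⟩ := mem_filter.1 hμ
  set p := MvPolynomial.coeff μ P
  have hp : p ≠ 0 := MvPolynomial.mem_support_iff.1 hμs
  set Q := MvPolynomial.C p * twist d b P - MvPolynomial.C (expand ℂ d p) * P with hQ
  have hQ0 : Q = 0 := by
    have hQdeg : Q.totalDegree ≤ D := by
      refine (MvPolynomial.totalDegree_sub _ _).trans (max_le ?_ ?_) <;>
        refine (MvPolynomial.totalDegree_mul _ _).trans ?_ <;>
        simp only [MvPolynomial.totalDegree_C, zero_add]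
      exacts [(totalDegree_twist_le b P).trans hdeg, hdeg]
    have hsub : topSupport Q D ⊆ (topSupport P D).erase μ := fun ν hν => by
      obtain ⟨hν, hνd⟩ := mem_filter.1 hν
      rw [MvPolynomial.mem_support_iff, hQ, MvPolynomial.coeff_sub, MvPolynomial.coeff_C_mul,
        MvPolynomial.coeff_C_mul, coeff_twist_top b (hdeg.trans hνd.ge)] at hν
      refine mem_erase.2 ⟨?_, mem_filter.2 ⟨MvPolynomial.mem_support_iff.2 ?_, hνd⟩⟩
      · rintro rfl
        exact hν (by ring)
      · intro h0
        exact hν (by rw [h0, map_zero, mul_zero, mul_zero, sub_zero])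
    have hk : 0 < (topSupport P D).card := card_pos.2 ⟨μ, hμ⟩
    refine ihk ((topSupport Q D).card) ?_ Q hQdeg le_rfl fun z hz => ?_
    · have := card_le_card hsub
      rw [card_erase_of_mem hμ] at this
      omega
    · have hz' : ‖z ^ d‖ < 1 := by
        rw [norm_pow]
        exact pow_lt_one₀ (norm_nonneg z) hz (by omega)
      have htw : MvPolynomial.eval₂ (Polynomial.evalRingHom z) (fun i => f i z) (twist d b P) =
          MvPolynomial.eval₂ (Polynomial.evalRingHom (z ^ d)) (fun i => f i (z ^ d)) P := by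
        rw [← MvPolynomial.coe_eval₂Hom, twist, ← RingHom.comp_apply,
          ← MvPolynomial.coe_eval₂Hom]
        congr 1
        refine MvPolynomial.ringHom_ext (fun a => ?_) fun i => ?_
        · simp [Polynomial.expand_eval]
        · simp [heq i z hz]
      rw [hQ, MvPolynomial.eval₂_sub, MvPolynomial.eval₂_mul, MvPolynomial.eval₂_mul, htw,
        hP z hz, hP _ hz', mul_zero, mul_zero, sub_zero]
  have hcoef : ∀ ν, p * MvPolynomial.coeff ν (twist d b P) =
      expand ℂ d p * MvPolynomial.coeff ν P := fun ν => by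
    have := congrArg (MvPolynomial.coeff ν) hQ0
    rwa [hQ, MvPolynomial.coeff_sub, MvPolynomial.coeff_C_mul, MvPolynomial.coeff_C_mul,
      MvPolynomial.coeff_zero, sub_eq_zero] at this
  -- the top coefficients
  have htop : ∀ ν : Fin n →₀ ℕ, ν.degree = D →
      ∃ c, MvPolynomial.coeff ν P = p * Polynomial.C c := fun ν hν =>
    exists_eq_const_mul hd hp (by rw [← coeff_twist_top b (hdeg.trans hν.ge)]; exact hcoef ν)
  rcases Nat.eq_zero_or_pos D with rfl | hD
  · exfalso
    obtain ⟨a, ha⟩ : ∃ a, P = MvPolynomial.C a :=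
      ⟨_, MvPolynomial.totalDegree_eq_zero_iff_eq_C.1 (Nat.le_zero.1 hdeg)⟩
    refine hp ?_
    have ha0 : a = 0 := by
      refine Polynomial.eq_zero_of_infinite_isRoot a ?_
      refine Set.Infinite.mono (s := Metric.ball (0 : ℂ) 1) (fun z hz => ?_) ?_
      · have := hP z (by simpa using hz)
        rw [ha, MvPolynomial.eval₂_C] at this
        exact this
      · exact infinite_of_mem_nhds (0 : ℂ) (Metric.ball_mem_nhds _ one_pos)
    simp [p, ha, ha0]
  obtain ⟨i, hi⟩ : ∃ i, 0 < μ i := by
    by_contra hc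
    push Not at hc
    have : μ = 0 := Finsupp.ext fun i => Nat.le_zero.1 (hc i)
    rw [this, map_zero] at hμd
    omega
  set ρ := μ - Finsupp.single i 1
  have hρi : ρ + Finsupp.single i 1 = μ := by
    ext l
    rcases eq_or_ne i l with rfl | hl
    · simp [ρ]
      omega
    · simp [ρ, Finsupp.single_eq_of_ne' hl]
  have hρd : ρ.degree + 1 = D := by
    rw [← hμd, ← hρi, map_add, Finsupp.degree_single]
  choose c hc using fun l : Fin n =>
    htop (ρ + Finsupp.single l 1) (by rw [map_add, Finsupp.degree_single, hρd])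
  have hci : c i = 1 := by
    have h := hc i
    rw [hρi] at h
    exact Polynomial.C_injective (mul_left_cancel₀ hp (by rw [← h, map_one, mul_one]))
  set g : Fin n → ℂ := fun l => -(c l * ((ρ l + 1 : ℕ) : ℂ))
  set Γ := ∑ l, Polynomial.C (c l * ((ρ l + 1 : ℕ) : ℂ)) * b l with hΓ
  obtain ⟨q, -, hq⟩ := exists_eq_mul (Γ := Γ) hd hp (s := MvPolynomial.coeff ρ P) (by
    have h := hcoef ρ
    rw [coeff_twist_sub_top b (hdeg.trans hρd.ge)] at h
    have e : ∀ l, expand ℂ d (MvPolynomial.coeff (ρ + Finsupp.single l 1) P) *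
        ((ρ l + 1 : ℕ) : Polynomial ℂ) * b l =
        expand ℂ d p * (Polynomial.C (c l * ((ρ l + 1 : ℕ) : ℂ)) * b l) := fun l => by
      rw [hc l, map_mul, Polynomial.expand_C, map_mul Polynomial.C, map_natCast]
      ring
    simp only [e, ← mul_sum, ← hΓ] at h
    linear_combination h)
  have hg := congrFun (hb g q (by
    rw [hq, hΓ, ← sum_neg_distrib]
    exact sum_congr rfl fun l _ => by simp [g])) i
  simp only [g, hci, one_mul, Pi.zero_apply, neg_eq_zero, Nat.cast_eq_zero] at hg
  omega

end FA.MahlerIndependence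

end
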