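import Fermat.Agent.MahlerIndependence.Values
import Mathlib.RingTheory.AlgebraicIndependent.Basic

/-!
# The series `∑ z ^ (j d ^ k)`

They satisfy `f (z ^ d) = f (z) - z ^ j`; for `j` prime to `d` in the weak sense `d ∤ j` no
combination of the `z ^ j` is a difference `q (z ^ d) - q (z)`, so their values are independent.
-/

set_option autoImplicit false

noncomputable section

namespace FA.MahlerIndependence

open Finset
open FA.Mahler (Rep)

variable {d : ℕ}

/-- `∑ z ^ (j d ^ k)`. -/
def lacunary (d j : ℕ) (z : ℂ) : ℂ := ∑' k : ℕ, z ^ (j * d ^ k)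

open Classical in
/-- The indicator of the exponents `j d ^ k`. -/
def lacunaryInd (d j m : ℕ) : ℚ := if m ∈ Set.range (fun k : ℕ => j * d ^ k) then 1 else 0

theorem summable_lacunary (hd : 2 ≤ d) {j : ℕ} (hj : 0 < j) {z : ℂ} (hz : ‖z‖ < 1) :
    Summable fun k : ℕ => z ^ (j * d ^ k) :=
  Summable.of_norm_bounded (summable_geometric_of_lt_one (norm_nonneg z) hz) fun k => by
    rw [norm_pow]
    exact pow_le_pow_of_le_one (norm_nonneg z) hz.le
      ((Nat.lt_pow_self (by omega)).le.trans (Nat.le_mul_of_pos_left _ hj))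

theorem rep_lacunary (hd : 2 ≤ d) {j : ℕ} (hj : 0 < j) :
    Rep (algebraMap ℚ ℂ) (PowerSeries.mk (lacunaryInd d j)) (lacunary d j) := fun z hz => by
  classical
  simp only [PowerSeries.coeff_mk, eq_ratCast]
  refine ⟨Summable.of_nonneg_of_le (fun _ => norm_nonneg _) (fun m => ?_)
    (summable_geometric_of_lt_one (norm_nonneg z) hz), ?_⟩
  · rw [norm_mul, norm_pow]
    refine mul_le_of_le_one_left (pow_nonneg (norm_nonneg z) m) ?_
    unfold lacunaryInd
    split_ifs <;> simp
  · have hinj : Function.Injective fun k : ℕ => j * d ^ k := fun a b h =>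
      Nat.pow_right_injective hd (Nat.eq_of_mul_eq_mul_left hj h)
    rw [← hinj.tsum_eq (f := fun m => (lacunaryInd d j m : ℂ) * z ^ m) fun m hm => ?_]
    · exact tsum_congr fun k => by
        rw [lacunaryInd, if_pos ⟨k, rfl⟩, Rat.cast_one, one_mul]
    · by_contra h
      simp [lacunaryInd] at hm
      exact h hm.1

theorem lacunary_eq (hd : 2 ≤ d) {j : ℕ} (hj : 0 < j) {z : ℂ} (hz : ‖z‖ < 1) :
    lacunary d j (z ^ d) = lacunary d j z - z ^ j := by
  rw [lacunary, lacunary, (summable_lacunary hd hj hz).tsum_eq_zero_add, pow_zero, mul_one,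
    add_sub_cancel_left]
  exact tsum_congr fun k => by
    rw [← pow_mul]
    congr 1
    ring

/-- No combination of the `z ^ j` is a difference. -/
theorem lacunary_criterion (hd : 2 ≤ d) {n : ℕ} {j : Fin n → ℕ} (hj : ∀ i, ¬ d ∣ j i)
    (hinj : Function.Injective j) (g : Fin n → ℂ) (q : Polynomial ℂ)
    (h : Polynomial.expand ℂ d q - q = ∑ i, Polynomial.C (g i) * (-Polynomial.X ^ j i)) :
    g = 0 := by
  have hd0 : 0 < d := by omega
  have hc : ∀ m, (Polynomial.expand ℂ d q).coeff m - q.coeff m =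
      ∑ i, if m = j i then -g i else 0 := fun m => by
    have := congrArg (fun P => Polynomial.coeff P m) h
    simp only [Polynomial.coeff_sub, Polynomial.finsetSum_coeff] at this
    rw [this]
    refine sum_congr rfl fun i _ => ?_
    rw [mul_neg, Polynomial.coeff_neg, Polynomial.coeff_C_mul, Polynomial.coeff_X_pow]
    split_ifs <;> simp
  funext i
  have hstep : ∀ k, q.coeff (j i * d ^ (k + 1)) = q.coeff (j i * d ^ k) := fun k => by
    have h1 := hc (j i * d ^ (k + 1))
    rw [pow_succ, ← mul_assoc, Polynomial.coeff_expand_mul hd0, sum_eq_zero fun l _ => if_neg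
      fun hl => hj l ⟨j i * d ^ k, by rw [← hl]; ring⟩, sub_eq_zero] at h1
    rw [pow_succ, ← mul_assoc]
    exact h1.symm
  have hall : ∀ k, q.coeff (j i * d ^ k) = q.coeff (j i) := fun k => by
    induction k with
    | zero => simp
    | succ k ih => rw [hstep, ih]
  have hj0 : 0 < j i := Nat.pos_of_ne_zero fun h0 => hj i (h0 ▸ dvd_zero d)
  have hq0 : q.coeff (j i) = 0 := by
    rw [← hall (q.natDegree + 1)]
    exact Polynomial.coeff_eq_zero_of_natDegree_lt
      ((Nat.lt_succ_self _).trans_le ((Nat.lt_pow_self (by omega)).le.trans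
        (Nat.le_mul_of_pos_left _ hj0)))
  have h1 := hc (j i)
  rw [Polynomial.coeff_expand hd0, if_neg (hj i), hq0, sub_zero, sum_eq_single i
    (fun l _ hl => if_neg fun e => hl (hinj e.symm)) (fun hi => absurd (mem_univ i) hi),
    if_pos rfl] at h1
  exact neg_eq_zero.1 h1.symm

/-- **The values for all `j` not divisible by `d`.** -/
theorem algebraicIndependent_lacunary (hd : 2 ≤ d) {α : ℂ} (hα : IsAlgebraic ℚ α) (hα0 : α ≠ 0)
    (hα1 : ‖α‖ < 1) :
    AlgebraicIndependent ℚ fun j : {j : ℕ // ¬ d ∣ j} => lacunary d j α := by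
  rw [algebraicIndependent_iff]
  intro P hP
  obtain ⟨n, e, he, R, rfl⟩ := MvPolynomial.exists_fin_rename P
  have hpos : ∀ i, 0 < (e i).1 := fun i => Nat.pos_of_ne_zero fun h0 =>
    (e i).2 (h0 ▸ dvd_zero d)
  have h := algebraicIndependent_values (algebraMap ℚ ℂ) (fun i => lacunaryInd d (e i).1)
    (f := fun i => lacunary d (e i).1) (fun i => rep_lacunary hd (hpos i)) hd
    (fun i => -Polynomial.X ^ (e i).1) (fun i z hz => by
      simpa [← sub_eq_add_neg] using lacunary_eq hd (hpos i) hz)
    (fun g q hq => lacunary_criterion hd (fun i => (e i).2)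
      (fun a b hab => he (Subtype.ext hab)) g q (by simpa using hq)) hα hα0 hα1
  rw [MvPolynomial.aeval_rename] at hP
  rw [algebraicIndependent_iff.1 h R hP, map_zero]

end FA.MahlerIndependence

end
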