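import Fermat.Agent.MahlerIndependence.Auxiliary
import Fermat.Agent.MahlerIndependence.FunctionRelations
import Mathlib.RingTheory.AlgebraicIndependent.Defs
import Mathlib.Analysis.Complex.CauchyIntegral
import Mathlib.Analysis.Complex.LocallyUniformLimit

/-!
# Mahler's method in several functions

If `f (z ^ d) = f (z) + b (z)` and `R (f (α)) = 0`, then `R (f (z) - c) = 0` at `z = α ^ (d ^ k)`,
`c = ∑_{j<k} b (α ^ (d ^ j))`: so the auxiliary polynomial has values there of size
`|α| ^ (M d^k)` and of height `O (N d^k)`; they are not all zero, as the functions are independent.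
-/

set_option autoImplicit false
set_option linter.style.haveILetI false

noncomputable section

namespace FA.MahlerIndependence

open Finset NumberField Module
open FA.Mahler (Rep Bd exists_bd)

variable {K : Type*} [Field K] {n : ℕ}

theorem differentiableOn_of_rep {ψ : K →+* ℂ} {G : PowerSeries K} {g : ℂ → ℂ} (hG : Rep ψ G g) :
    DifferentiableOn ℂ g (Metric.ball 0 1) := by
  intro z hz
  rw [mem_ball_zero_iff] at hz
  obtain ⟨r, hr1, hr2⟩ := exists_between hz
  have hr0 : 0 ≤ r := (norm_nonneg z).trans hr1.le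
  have hu : Summable fun m => ‖ψ (PowerSeries.coeff m G)‖ * r ^ m := by
    refine (hG (r : ℂ) (by rwa [Complex.norm_real, Real.norm_of_nonneg hr0])).1.congr fun m => ?_
    rw [norm_mul, norm_pow, Complex.norm_real, Real.norm_of_nonneg hr0]
  have hd := Complex.differentiableOn_tsum_of_summable_norm (U := Metric.ball (0 : ℂ) r) hu
    (fun m => Differentiable.differentiableOn (by fun_prop :
      Differentiable ℂ fun w : ℂ => ψ (PowerSeries.coeff m G) * w ^ m))
    Metric.isOpen_ball fun m w hw => by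
      rw [norm_mul, norm_pow]
      exact mul_le_mul_of_nonneg_left
        (pow_le_pow_left₀ (norm_nonneg _) (mem_ball_zero_iff.1 hw).le m) (norm_nonneg _)
  refine ((hd.differentiableAt (Metric.isOpen_ball.mem_nhds
    (mem_ball_zero_iff.2 hr1))).congr_of_eventuallyEq ?_).differentiableWithinAt
  refine Filter.eventuallyEq_of_mem (Metric.isOpen_ball.mem_nhds (mem_ball_zero_iff.2 hr1))
    fun w hw => ?_
  exact (hG w (lt_trans (mem_ball_zero_iff.1 hw) hr2)).2.symm

variable [NumberField K]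

set_option maxHeartbeats 1000000 in
/-- **Mahler's argument in several functions.** -/
theorem false_of_value_relation (ψ : K →+* ℂ) (c : Fin n → ℕ → K) {f : Fin n → ℂ → ℂ}
    (hf : ∀ i, Rep ψ (PowerSeries.mk (c i)) (f i)) {d : ℕ} (hd : 2 ≤ d) (b : Fin n → Polynomial K)
    (heq : ∀ i, ∀ z : ℂ, ‖z‖ < 1 → f i (z ^ d) = f i z + ((b i).map ψ).eval z)
    (hb : ∀ (g : Fin n → ℂ) (q : Polynomial ℂ),
      Polynomial.expand ℂ d q - q = ∑ i, Polynomial.C (g i) * (b i).map ψ → g = 0)
    (α : K) (hα0 : α ≠ 0) (hα1 : ‖ψ α‖ < 1) {R : MvPolynomial (Fin n) K} (hR : R ≠ 0)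
    (hRα : MvPolynomial.eval₂ ψ (fun i => f i (ψ α)) R = 0) : False := by
  classical
  set g := univ.sup fun i => (b i).natDegree
  obtain ⟨W, hW2, hbd⟩ := exists_bd (insert α ((univ ×ˢ range (g + 1)).image
    fun p : Fin n × ℕ => (b p.1).coeff p.2))
  have hW : 1 ≤ W := one_le_two.trans hW2
  have hu : ∀ k, Bd W (d ^ k) (α ^ d ^ k) := fun k => by
    simpa using (hbd α (mem_insert_self _ _)).pow hW (d ^ k)
  set G := (g + 1) * (g + 2)
  have hev : ∀ i k, Bd W (G * d ^ k) ((b i).eval (α ^ d ^ k)) := fun i k => by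
    have hP : (b i).natDegree ≤ g := le_sup (f := fun i => (b i).natDegree) (mem_univ i)
    rw [Polynomial.eval_eq_sum_range' (Nat.lt_succ_of_le hP)]
    refine (Bd.sum hW2 (e := 1 + g * d ^ k) (g + 1) fun j hj => ?_).mono hW ?_
    · exact ((hbd _ (mem_insert_of_mem (mem_image.2
        ⟨(i, j), mem_product.2 ⟨mem_univ i, mem_range.2 hj⟩, rfl⟩))).mul hW ((hu k).pow hW j)).mono
        hW (Nat.add_le_add_left (Nat.mul_le_mul_right _ (by omega)) _)
    · have : 1 ≤ d ^ k := Nat.one_le_pow _ _ (by omega)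
      simp only [G]
      nlinarith
  set J := G + 1
  let γ : ℕ → Fin n → K := fun k i => ∑ j ∈ range k, (b i).eval (α ^ d ^ j)
  have hγ : ∀ k i, Bd W (J * d ^ k) (γ k i) := fun k i => by
    induction k with
    | zero => exact ⟨1, one_ne_zero, by simpa using one_le_pow₀ hW,
        by simpa [γ] using isIntegral_zero,
        by simpa [γ, house] using pow_nonneg (zero_le_one.trans hW) J⟩
    | succ k ih =>
      rw [show γ (k + 1) i = γ k i + (b i).eval (α ^ d ^ k) from sum_range_succ _ k]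
      refine (ih.add hW2 (hev i k)).mono hW ?_
      have hk : 1 ≤ d ^ k := Nat.one_le_pow _ _ (by omega)
      have h2 : J * (2 * d ^ k) ≤ J * d ^ (k + 1) := by
        rw [pow_succ']; exact Nat.mul_le_mul_left _ (Nat.mul_le_mul_right _ hd)
      simp only [J] at h2 ⊢
      nlinarith
  have hz1 : ∀ k, ‖ψ α ^ d ^ k‖ < 1 := fun k => by
    rw [norm_pow]; exact pow_lt_one₀ (norm_nonneg _) hα1 (pow_ne_zero _ (by omega))
  have hval : ∀ k i, ψ (γ k i) = f i (ψ α ^ d ^ k) - f i (ψ α) := fun k i => by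
    induction k with
    | zero => simp [γ]
    | succ k ih =>
      rw [show γ (k + 1) i = γ k i + (b i).eval (α ^ d ^ k) from sum_range_succ _ k, map_add, ih,
        pow_succ d, pow_mul, heq i _ (hz1 k), Polynomial.eval_map, ← map_pow,
        Polynomial.eval₂_hom]
      ring
  -- the bound of the parameters
  have hball : ∀ i, ∃ B, 0 ≤ B ∧ ∀ z : ℂ, ‖z‖ ≤ 1 / 2 → ‖f i z‖ ≤ B * ‖z‖ ^ 0 :=
    fun i => exists_bound (hf i) (fun m hm => absurd hm (by omega))
  choose B₁ hB₁0 hB₁ using hball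
  set Γ := 1 + ∑ i, (B₁ i + ‖f i (ψ α)‖) with hΓdef
  have hΓ : 1 ≤ Γ := le_add_of_nonneg_right
    (sum_nonneg fun i _ => add_nonneg (hB₁0 i) (norm_nonneg _))
  -- the parameter
  set r := ‖ψ α‖
  have hr0 : 0 < r := norm_pos_iff.mpr ((map_ne_zero ψ).mpr hα0)
  set h := finrank ℚ K
  set E₂ := 1 + n * J with hE₂
  obtain ⟨s₀, hs₀⟩ := exists_pow_lt_of_lt_one
    (show 0 < 1 / (2 * W ^ (2 * h * E₂)) by positivity) hα1
  set s := s₀ + 2
  have hs : r ^ s * W ^ (2 * h * E₂) ≤ 1 / 2 := by
    have h1 : r ^ s ≤ r ^ s₀ := pow_le_pow_of_le_one hr0.le hα1.le (Nat.le_add_right _ _)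
    calc r ^ s * W ^ (2 * h * E₂) ≤ 1 / (2 * W ^ (2 * h * E₂)) * W ^ (2 * h * E₂) :=
          mul_le_mul_of_nonneg_right (h1.trans hs₀.le) (by positivity)
      _ = 1 / 2 := by field_simp
  obtain ⟨N, M, η, B, hN1, hMN, hη0, hηi, hup⟩ :=
    exists_auxiliary (ψ := ψ) hf hR hΓ (s := s) (by omega)
  set Y : ℕ → K := fun k => ∑ t, η t * ((α ^ d ^ k) ^ t.1.val * ∏ i, γ k i ^ (t.2 i).val)
  have hY : ∀ k, ψ (Y k) = ∑ t, ψ (η t) * ((ψ α ^ d ^ k) ^ t.1.val *
      ∏ i, (f i (ψ α ^ d ^ k) - f i (ψ α)) ^ (t.2 i).val) := fun k => by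
    simp [Y, map_sum, map_prod, hval]
  have hlim : Filter.Tendsto (fun k : ℕ => ψ α ^ d ^ k) Filter.atTop (nhds 0) :=
    (tendsto_pow_atTop_nhds_zero_of_norm_lt_one hα1).comp
      (tendsto_pow_atTop_atTop_of_one_lt (by omega : 1 < d))
  -- not all values vanish
  have hfreq : ∃ᶠ k in Filter.atTop, Y k ≠ 0 := by
    intro hev0
    simp only [not_not] at hev0
    set Φ : ℂ → ℂ := fun z => ∑ t, ψ (η t) * (z ^ t.1.val *
      ∏ i, (f i z - f i (ψ α)) ^ (t.2 i).val)
    have hdiff : DifferentiableOn ℂ Φ (Metric.ball 0 1) := fun z hz =>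
      DifferentiableWithinAt.fun_sum fun t _ => (((differentiable_pow _).differentiableAt
        |>.differentiableWithinAt).mul (DifferentiableWithinAt.fun_finsetProd fun i _ =>
          ((differentiableOn_of_rep (hf i) z hz).sub_const _).pow _)).const_mul _
    have hzero : Set.EqOn Φ (fun _ => 0) (Metric.ball 0 1) := by
      refine AnalyticOnNhd.eqOn_of_preconnected_of_frequently_eq
        (hdiff.analyticOnNhd Metric.isOpen_ball) analyticOnNhd_const
        (convex_ball 0 1).isPreconnected (Metric.mem_ball_self one_pos) ?_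
      refine (tendsto_nhdsWithin_iff.2 ⟨hlim, Filter.Eventually.of_forall fun k => ?_⟩).frequently
        (Filter.Eventually.frequently ?_)
      · exact pow_ne_zero _ ((map_ne_zero ψ).mpr hα0)
      · filter_upwards [hev0] with k hk
        exact (hY k).symm.trans (by rw [hk, map_zero])
    set a : Fin n → Polynomial ℂ := fun i => Polynomial.C (f i (ψ α))
    set P : MvPolynomial (Fin n) (Polynomial ℂ) := ∑ t, MvPolynomial.C
      (Polynomial.C (ψ (η t)) * Polynomial.X ^ t.1.val) *
        ∏ i, (MvPolynomial.X i - MvPolynomial.C (a i)) ^ (t.2 i).val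
    have hP : P = 0 := by
      refine no_relation hd heq hb fun z hz => ?_
      refine Eq.trans ?_ (hzero (mem_ball_zero_iff.2 hz))
      simp [P, Φ, a, mul_assoc]
    have h1 := congrArg (MvPolynomial.eval₂Hom MvPolynomial.C
      fun i => MvPolynomial.X i + MvPolynomial.C (a i)) hP
    simp only [P, map_zero, map_sum, map_mul, map_prod, map_pow, map_sub,
      MvPolynomial.eval₂Hom_C, MvPolynomial.eval₂Hom_X', add_sub_cancel_right] at h1
    refine hη0 (funext fun t => ?_)
    have h2 := congrArg (fun Q => Polynomial.coeff (MvPolynomial.coeff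
      (Finsupp.equivFunOnFinite.symm fun i => (t.2 i).val) Q) t.1.val) h1
    simp only [MvPolynomial.coeff_zero, Polynomial.coeff_zero, MvPolynomial.coeff_sum,
      Polynomial.finsetSum_coeff] at h2
    have hprod : ∀ κ : Fin n → ℕ, ∏ i, (MvPolynomial.X i : MvPolynomial (Fin n) (Polynomial ℂ)) ^
        κ i = MvPolynomial.monomial (Finsupp.equivFunOnFinite.symm κ) 1 := fun κ => by
      rw [MvPolynomial.monomial_eq, map_one, one_mul, Finsupp.prod_fintype _ _ fun _ => pow_zero _]
      rfl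
    rw [sum_eq_single t] at h2
    · rw [hprod, ← map_pow, ← map_mul, MvPolynomial.C_mul_monomial] at h2
      simpa [MvPolynomial.coeff_monomial, Polynomial.coeff_C_mul] using h2
    · intro t' _ hne
      rw [hprod, ← map_pow, ← map_mul, MvPolynomial.C_mul_monomial,
        MvPolynomial.coeff_monomial]
      split_ifs with heq'
      · rw [mul_one, Polynomial.coeff_C_mul, Polynomial.coeff_X_pow, if_neg, mul_zero]
        intro hj
        refine hne (Prod.ext (Fin.ext hj.symm) (funext fun i => Fin.ext ?_))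
        exact congrArg (fun v : Fin n →₀ ℕ => v i) heq'
      · exact Polynomial.coeff_zero _
    · exact fun ht => absurd (mem_univ t) ht
  -- the house of the coefficients
  obtain ⟨E₀, hE₀⟩ := pow_unbounded_of_one_lt (∑ t, house (η t)) (show 1 < W by linarith)
  set Q := W ^ E₀ with hQ
  have hQ1 : 1 ≤ Q := one_le_pow₀ hW
  have hlimB : Filter.Tendsto (fun k : ℕ => |B| * Q ^ (2 * h) * (1 / 2 : ℝ) ^ d ^ k)
      Filter.atTop (nhds 0) := by
    have h1 : Filter.Tendsto (fun k : ℕ => (1 / 2 : ℝ) ^ d ^ k) Filter.atTop (nhds 0) :=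
      (tendsto_pow_atTop_nhds_zero_of_lt_one (by norm_num) (by norm_num)).comp
        (tendsto_pow_atTop_atTop_of_one_lt (by omega : 1 < d))
    simpa using h1.const_mul _
  have hlim' : ∀ᶠ k : ℕ in Filter.atTop, ‖ψ α ^ d ^ k‖ ≤ 1 / 2 :=
    (hlim.norm.eventually (ge_mem_nhds (by norm_num : ‖(0 : ℂ)‖ < 1 / 2)))
  obtain ⟨k, hYk, hk1, hk2⟩ := (hfreq.and_eventually
    ((hlimB.eventually (gt_mem_nhds one_pos)).and hlim')).exists
  -- the value
  have hle : ‖ψ (Y k)‖ ≤ B * ‖ψ α ^ d ^ k‖ ^ M := by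
    rw [hY]
    refine hup _ _ hk2 (fun i => ?_) (by simpa using hRα)
    refine (norm_sub_le _ _).trans ?_
    refine (add_le_add ((hB₁ i _ hk2).trans_eq (by rw [pow_zero, mul_one])) le_rfl).trans ?_
    rw [hΓdef]
    refine (single_le_sum (f := fun i => B₁ i + ‖f i (ψ α)‖)
      (fun i _ => add_nonneg (hB₁0 i) (norm_nonneg _)) (mem_univ i)).trans ?_
    linarith
  obtain ⟨nu, nu0, nu1, nu2, nu3⟩ := hu k
  choose nv nv0 nv1 nv2 nv3 using hγ k
  set den : ℤ := nu ^ N * ∏ i, nv i ^ N with hden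
  set X : K := (den : K) * Y k with hX
  have hXi : IsIntegral ℤ X := by
    simp only [X, Y, Finset.mul_sum]
    refine IsIntegral.sum _ fun t _ => ?_
    have hj : t.1.val ≤ N := Nat.lt_succ_iff.mp t.1.isLt
    have hk' : ∀ i, (t.2 i).val ≤ N := fun i => Nat.lt_succ_iff.mp (t.2 i).isLt
    rw [hden]
    push_cast
    rw [show (nu : K) ^ N = (nu : K) ^ (N - t.1.val) * (nu : K) ^ t.1.val by
        rw [← pow_add, Nat.sub_add_cancel hj],
      show ∏ i, (nv i : K) ^ N = (∏ i, (nv i : K) ^ (N - (t.2 i).val)) *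
          ∏ i, (nv i : K) ^ (t.2 i).val by
        rw [← prod_mul_distrib]
        exact prod_congr rfl fun i _ => by rw [← pow_add, Nat.sub_add_cancel (hk' i)],
      show (nu : K) ^ (N - t.1.val) * (nu : K) ^ t.1.val *
        ((∏ i, (nv i : K) ^ (N - (t.2 i).val)) * ∏ i, (nv i : K) ^ (t.2 i).val) *
          (η t * ((α ^ d ^ k) ^ t.1.val * ∏ i, γ k i ^ (t.2 i).val)) =
        η t * ((nu : K) ^ (N - t.1.val) * ∏ i, (nv i : K) ^ (N - (t.2 i).val)) *
          (((nu : K) * α ^ d ^ k) ^ t.1.val * ∏ i, ((nv i : K) * γ k i) ^ (t.2 i).val) by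
        simp only [mul_pow, prod_mul_distrib]
        ring]
    exact ((hηi t).mul (((isIntegral_algebraMap (R := ℤ) (x := nu)).pow _).mul
      (IsIntegral.prod _ fun i _ => (isIntegral_algebraMap (R := ℤ) (x := nv i)).pow _))).mul
      ((nu2.pow _).mul (IsIntegral.prod _ fun i _ => (nv2 i).pow _))
  have hden0 : den ≠ 0 := mul_ne_zero (pow_ne_zero _ nu0)
    (prod_ne_zero_iff.2 fun i _ => pow_ne_zero _ (nv0 i))
  have hX0 : (⟨X, hXi⟩ : 𝓞 K) ≠ 0 := fun h0 =>
    mul_ne_zero (Int.cast_ne_zero.mpr hden0) hYk (congrArg Subtype.val h0)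
  set P := W ^ (N * E₂ * d ^ k) with hP
  have hP0 : 0 ≤ P := by positivity
  have hP' : (W ^ d ^ k) ^ N * ∏ _i : Fin n, (W ^ (J * d ^ k)) ^ N = P := by
    rw [prod_const, card_univ, Fintype.card_fin, ← pow_mul, ← pow_mul, ← pow_mul, ← pow_add, hP,
      hE₂]
    congr 1
    ring
  have hdenP : |(den : ℝ)| ≤ P := by
    rw [hden, Int.cast_mul, Int.cast_pow, Int.cast_prod, abs_mul, abs_pow, abs_prod, ← hP']
    refine mul_le_mul (pow_le_pow_left₀ (abs_nonneg _) nu1 _) (prod_le_prod
      (fun i _ => abs_nonneg _) fun i _ => ?_) (prod_nonneg fun i _ => abs_nonneg _)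
      (by positivity)
    rw [Int.cast_pow, abs_pow]
    exact pow_le_pow_left₀ (abs_nonneg _) (nv1 i) _
  have hYh : house (Y k) ≤ Q * P := by
    refine (house_sum_le_sum_house _ _).trans ?_
    have hhp : ∀ (m : ℕ) (v : Fin m → K) (w : Fin m → ℝ), (∀ i, house (v i) ≤ w i) →
        house (∏ i, v i) ≤ ∏ i, w i := fun m => by
      induction m with
      | zero => intro v w _; simpa using FA.Mahler.house_one_le (K := K)
      | succ m ih =>
        intro v w hvw
        rw [Fin.prod_univ_succ, Fin.prod_univ_succ]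
        exact (house_mul_le _ _).trans (mul_le_mul (hvw 0) (ih _ _ fun i => hvw _)
          (house_nonneg _) ((house_nonneg _).trans (hvw 0)))
    have hone : ∀ t : Fin (N + 1) × (Fin n → Fin (N + 1)),
        house (η t * ((α ^ d ^ k) ^ t.1.val * ∏ i, γ k i ^ (t.2 i).val)) ≤ house (η t) * P :=
        fun t => by
      refine (house_mul_le _ _).trans (mul_le_mul_of_nonneg_left ?_ (house_nonneg _))
      rw [← hP']
      refine (house_mul_le _ _).trans (mul_le_mul ?_ (hhp _ _ _ fun i => ?_) (house_nonneg _)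
        (by positivity))
      · exact (house_pow_le _ _).trans ((pow_le_pow_left₀ (house_nonneg _) nu3 _).trans
          (pow_le_pow_right₀ (one_le_pow₀ hW) (Nat.lt_succ_iff.mp t.1.isLt)))
      · exact (house_pow_le _ _).trans ((pow_le_pow_left₀ (house_nonneg _) (nv3 i) _).trans
          (pow_le_pow_right₀ (one_le_pow₀ hW) (Nat.lt_succ_iff.mp (t.2 i).isLt)))
    refine (Finset.sum_le_sum fun t _ => hone t).trans ?_
    rw [← Finset.sum_mul]
    exact mul_le_mul_of_nonneg_right hE₀.le hP0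
  have hXψ : ‖ψ X‖ ≤ P * (|B| * (r ^ d ^ k) ^ M) := by
    rw [hX, map_mul, map_intCast, norm_mul, Complex.norm_intCast]
    refine mul_le_mul hdenP (hle.trans ?_) (norm_nonneg _) hP0
    rw [norm_pow]
    exact mul_le_mul_of_nonneg_right (le_abs_self B) (by positivity)
  have hXh : house X ≤ P * (Q * P) := by
    refine (house_mul_le _ _).trans (mul_le_mul ?_ hYh (house_nonneg _) hP0)
    rw [house_intCast, Int.cast_abs]
    exact hdenP
  have hh : 0 < h := finrank_pos
  have hmain := (GelfondSchneider.one_le_norm_mul_house_pow hX0 ψ).trans (mul_le_mul hXψ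
    (pow_le_pow_left₀ (house_nonneg _) hXh (h - 1)) (pow_nonneg (house_nonneg _) _) (by positivity))
  have hP2 : P * (P * (Q * P)) ^ (h - 1) ≤ P ^ (2 * h) * Q ^ (2 * h) := by
    have hP1 : 1 ≤ P := one_le_pow₀ hW
    rw [show P * (Q * P) = P ^ 2 * Q by ring, mul_pow, ← pow_mul, ← mul_assoc, ← pow_succ']
    exact mul_le_mul (pow_le_pow_right₀ hP1 (by omega)) (pow_le_pow_right₀ hQ1 (by omega))
      (by positivity) (by positivity)
  have hfinal : (r ^ d ^ k) ^ M * P ^ (2 * h) ≤ (1 / 2 : ℝ) ^ d ^ k := by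
    refine (mul_le_mul_of_nonneg_right (pow_le_pow_of_le_one (by positivity)
      (pow_le_one₀ hr0.le hα1.le) hMN) (by positivity)).trans ?_
    rw [hP, ← pow_mul, ← pow_mul,
      show d ^ k * (s * N) = s * (N * d ^ k) by ring,
      show N * E₂ * d ^ k * (2 * h) = 2 * h * E₂ * (N * d ^ k) by ring, pow_mul r, pow_mul W,
      ← mul_pow]
    exact (pow_le_pow_left₀ (by positivity) hs _).trans (pow_le_pow_of_le_one (by norm_num)
      (by norm_num) (Nat.le_mul_of_pos_left _ hN1))
  have : (1 : ℝ) ≤ |B| * Q ^ (2 * h) * (1 / 2 : ℝ) ^ d ^ k := by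
    refine hmain.trans ?_
    rw [show P * (|B| * (r ^ d ^ k) ^ M) * (P * (Q * P)) ^ (h - 1) =
      |B| * ((r ^ d ^ k) ^ M * (P * (P * (Q * P)) ^ (h - 1))) by ring, mul_assoc]
    refine mul_le_mul_of_nonneg_left ?_ (abs_nonneg _)
    refine (mul_le_mul_of_nonneg_left hP2 (by positivity)).trans ?_
    rw [← mul_assoc, mul_comm (Q ^ (2 * h))]
    exact mul_le_mul_of_nonneg_right hfinal (by positivity)
  linarith

/-- **The theorem of Kubota and of Loxton and van der Poorten.** -/
theorem algebraicIndependent_values (ψ : K →+* ℂ) (c : Fin n → ℕ → K) {f : Fin n → ℂ → ℂ}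
    (hf : ∀ i, Rep ψ (PowerSeries.mk (c i)) (f i)) {d : ℕ} (hd : 2 ≤ d) (b : Fin n → Polynomial K)
    (heq : ∀ i, ∀ z : ℂ, ‖z‖ < 1 → f i (z ^ d) = f i z + ((b i).map ψ).eval z)
    (hb : ∀ (g : Fin n → ℂ) (q : Polynomial ℂ),
      Polynomial.expand ℂ d q - q = ∑ i, Polynomial.C (g i) * (b i).map ψ → g = 0)
    {α : ℂ} (hα : IsAlgebraic ℚ α) (hα0 : α ≠ 0) (hα1 : ‖α‖ < 1) :
    AlgebraicIndependent ℚ fun i => f i α := by
  rw [algebraicIndependent_iff]
  intro R hR
  by_contra hR0
  set F := ψ.toRatAlgHom.fieldRange ⊔ IntermediateField.adjoin ℚ ({α} : Set ℂ)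
  haveI : FiniteDimensional ℚ ψ.toRatAlgHom.fieldRange :=
    ψ.toRatAlgHom.toLinearMap.finiteDimensional_range
  haveI : FiniteDimensional ℚ (IntermediateField.adjoin ℚ ({α} : Set ℂ)) :=
    IntermediateField.finiteDimensional_adjoin fun z hz => by
      rw [Set.mem_singleton_iff] at hz
      exact hz ▸ hα.isIntegral
  haveI : FiniteDimensional ℚ F := IntermediateField.finiteDimensional_sup _ _
  haveI : NumberField F := { }
  let ι : K →+* F := (ψ.toRatAlgHom.codRestrict F.toSubalgebra fun x =>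
    le_sup_left (a := ψ.toRatAlgHom.fieldRange) ⟨x, rfl⟩).toRingHom
  have hι : (F.val.toRingHom).comp ι = ψ := rfl
  have hαF : α ∈ F := le_sup_right (a := ψ.toRatAlgHom.fieldRange)
    (IntermediateField.subset_adjoin ℚ _ rfl)
  refine false_of_value_relation F.val.toRingHom (fun i m => ι (c i m)) (f := f) (fun i => ?_) hd
    (fun i => (b i).map ι) (fun i z hz => ?_) ?_ ⟨α, hαF⟩ (fun h => hα0 (congrArg Subtype.val h))
    hα1 (R := MvPolynomial.map (algebraMap ℚ F) R) ?_ ?_
  · intro z hz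
    simp only [PowerSeries.coeff_mk]
    have := hf i z hz
    simp only [PowerSeries.coeff_mk] at this
    exact this
  · simp only [Polynomial.map_map, hι]
    exact heq i z hz
  · simpa only [Polynomial.map_map, hι] using hb
  · exact fun h => hR0 (MvPolynomial.map_injective _ (algebraMap ℚ F).injective
      (by rw [h, map_zero]))
  · rw [MvPolynomial.eval₂_map, ← hR, MvPolynomial.aeval_def]
    congr 1

end FA.MahlerIndependence

end
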